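import Mathlib
import Fermat.Agent.S41.Spec.PD
import Fermat.Agent.S21.H585.LowerBound

/-!
# Row S41, block PD, leaf DICT-a (helper460)

Dictionary `Hom(Γ, A) ↔` Manin symbols, first half (exact shapes of `Spec/PD.lean`):

* `maninRepExists    : Spec.ManinRepExistsStatement`    (D1)
* `maninRepZero      : Spec.ManinRepZeroStatement`      (D2)
* `maninRepInvariant : Spec.ManinRepInvariantStatement` (D2')
* `maninRepLinear    : Spec.ManinRepLinearStatement`    (D2'')

Reusable: `isCocycle_indc`, `indc_apply_of_fixed`, `exists_cobd_of_zpow_fixed` (a cocycle value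
`f g` is a `g`-coboundary as soon as `f (g ^ n) x = 0` whenever `g ^ n • x = x`),
`isCocycle_eq_of_S_ST` (a cocycle on `SL(2,ℤ)` is determined by its values at `S` and `S * T`).
-/

set_option autoImplicit false

namespace Fermat.Agent.S41.H460

open Matrix ModularGroup Matrix.SpecialLinearGroup
open Fermat.Agent.S21.H585 Fermat.Agent.S41.Spec
open scoped MatrixGroups

universe u

/-! ## Generalities on cocycles -/

section General

variable {G : Type*} [Group G] {X : Type*} [MulAction G X] {A : Type*} [AddCommGroup A]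

/-- The coboundary of a function is a cocycle. -/
lemma isCocycle_cobd (n : X → A) : IsCocycle (fun (g : G) (x : X) => n (g • x) - n x) := by
  intro g h x
  simp only [mul_smul]
  abel

lemma isCocycle_add {f f' : G → X → A} (hf : IsCocycle f) (hf' : IsCocycle f') :
    IsCocycle (fun g x => f g x + f' g x) := by
  intro g h x
  simp only [hf g h x, hf' g h x]
  abel

lemma isCocycle_sub {f f' : G → X → A} (hf : IsCocycle f) (hf' : IsCocycle f') :
    IsCocycle (fun g x => f g x - f' g x) := by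
  intro g h x
  simp only [hf g h x, hf' g h x]
  abel

lemma isCocycle_map {B : Type*} [AddCommGroup B] (π : A →+ B) {f : G → X → A}
    (hf : IsCocycle f) : IsCocycle (fun g x => π (f g x)) := by
  intro g h x
  simp only [hf g h x, map_add]

/-- If `f (g ^ n) x = 0` whenever `g ^ n` fixes `x`, then `f g` is a `g`-coboundary. -/
theorem exists_cobd_of_zpow_fixed {f : G → X → A} (hf : IsCocycle f) (g : G)
    (hper : ∀ (x : X) (n : ℤ), g ^ n • x = x → f (g ^ n) x = 0) :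
    ∃ h : X → A, ∀ x, f g x = h (g • x) - h x := by
  classical
  -- representatives of the orbits of `⟨g⟩`
  let r : X → X := fun x =>
    Quotient.out (Quotient.mk (MulAction.orbitRel (Subgroup.zpowers g) X) x)
  have hr : ∀ x, ∃ k : ℤ, g ^ k • r x = x := by
    intro x
    have h1 : (MulAction.orbitRel (Subgroup.zpowers g) X) (r x) x :=
      Quotient.exact (Quotient.out_eq _)
    rw [MulAction.orbitRel_apply] at h1
    obtain ⟨⟨t, ht⟩, hx⟩ := h1
    obtain ⟨k, rfl⟩ := Subgroup.mem_zpowers_iff.mp ht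
    -- `hx : ⟨g ^ k, _⟩ • x = r x`
    refine ⟨-k, ?_⟩
    have hx' : g ^ k • x = r x := hx
    rw [← hx', ← mul_smul, ← _root_.zpow_add, neg_add_cancel, zpow_zero, one_smul]
  have hrg : ∀ x, r (g • x) = r x := by
    intro x
    show Quotient.out _ = Quotient.out _
    congr 1
    apply Quotient.sound
    show (MulAction.orbitRel (Subgroup.zpowers g) X) (g • x) x
    rw [MulAction.orbitRel_apply]
    exact ⟨⟨g, Subgroup.mem_zpowers g⟩, rfl⟩
  choose k hk using hr
  refine ⟨fun x => f (g ^ k x) (r x), fun x => ?_⟩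
  show f g x = f (g ^ k (g • x)) (r (g • x)) - f (g ^ k x) (r x)
  rw [hrg]
  -- both `g ^ k (g • x)` and `g ^ (k x + 1)` move `r x` to `g • x`
  have h1 : g ^ (k x + 1) • r x = g • x := by
    rw [add_comm, _root_.zpow_add, zpow_one, mul_smul, hk]
  have h2 : g ^ k (g • x) • r x = g • x := by
    have := hk (g • x)
    rwa [hrg] at this
  have h3 : g ^ (k (g • x) - (k x + 1)) • (g • x) = g • x := by
    calc g ^ (k (g • x) - (k x + 1)) • (g • x)
        = g ^ (k (g • x) - (k x + 1)) • (g ^ (k x + 1) • r x) := by rw [h1]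
      _ = g ^ k (g • x) • r x := by
          rw [← mul_smul, ← _root_.zpow_add, sub_add_cancel]
      _ = g • x := h2
  have h4 : f (g ^ k (g • x)) (r x) = f (g ^ (k x + 1)) (r x) := by
    have e : g ^ k (g • x) = g ^ (k (g • x) - (k x + 1)) * g ^ (k x + 1) := by
      rw [← _root_.zpow_add, sub_add_cancel]
    rw [e, hf, h1, hper _ _ h3, add_zero]
  have h5 : f (g ^ (k x + 1)) (r x) = f (g ^ k x) (r x) + f g x := by
    rw [add_comm (k x) 1, _root_.zpow_add, zpow_one, hf, hk]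
  rw [h4, h5]
  abel

end General

/-! ## The induced cocycle -/

section Indc

variable {Γ : Subgroup SL(2, ℤ)} {A : Type*} [AddCommGroup A]

lemma indc_eq_of_eq (φ : Additive Γ →+ A) (g : SL(2, ℤ)) (x : SL(2, ℤ) ⧸ Γ) (γ : Γ)
    (h : (γ : SL(2, ℤ)) = (Quotient.out (g • x) : SL(2, ℤ))⁻¹ * g * Quotient.out x) :
    indc Γ φ g x = φ (Additive.ofMul γ) := by
  unfold indc
  congr 2
  exact Subtype.ext h.symm

/-- `indc φ` is a cocycle. -/
theorem isCocycle_indc (φ : Additive Γ →+ A) : IsCocycle (indc Γ φ) := by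
  intro g h x
  have hmem : (Quotient.out ((g * h) • x) : SL(2, ℤ))⁻¹ * (g * h) * Quotient.out x ∈ Γ :=
    sec_mem Γ (g * h) x
  set γ₁ : Γ := ⟨(Quotient.out (g • h • x) : SL(2, ℤ))⁻¹ * g * Quotient.out (h • x),
    sec_mem Γ g (h • x)⟩ with hγ₁
  set γ₂ : Γ := ⟨(Quotient.out (h • x) : SL(2, ℤ))⁻¹ * h * Quotient.out x, sec_mem Γ h x⟩
    with hγ₂
  have e1 : indc Γ φ (g * h) x = φ (Additive.ofMul (γ₁ * γ₂)) := by
    apply indc_eq_of_eq
    rw [Subgroup.coe_mul, hγ₁, hγ₂, mul_smul]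
    simp only [mul_assoc, mul_inv_cancel_left]
  have e2 : indc Γ φ h x = φ (Additive.ofMul γ₂) := indc_eq_of_eq φ h x γ₂ rfl
  have e3 : indc Γ φ g (h • x) = φ (Additive.ofMul γ₁) := indc_eq_of_eq φ g (h • x) γ₁ rfl
  rw [e1, e2, e3, ofMul_mul, map_add, add_comm]

/-- At a fixed point, `indc φ g x` is the value of `φ` at a conjugate of `g`. -/
lemma indc_apply_of_fixed (φ : Additive Γ →+ A) (g : SL(2, ℤ)) (x : SL(2, ℤ) ⧸ Γ)
    (hfix : g • x = x) :
    ∃ γ : Γ, (γ : SL(2, ℤ)) = (Quotient.out x : SL(2, ℤ))⁻¹ * g * Quotient.out x ∧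
      indc Γ φ g x = φ (Additive.ofMul γ) := by
  have hmem : (Quotient.out x : SL(2, ℤ))⁻¹ * g * Quotient.out x ∈ Γ := by
    have := sec_mem Γ g x
    rwa [hfix] at this
  refine ⟨⟨_, hmem⟩, rfl, ?_⟩
  apply indc_eq_of_eq
  rw [hfix]

/-- `indc φ` recovers `φ` at the base point. -/
lemma indc_basePt (φ : Additive Γ →+ A) (γ : Γ) :
    indc Γ φ (γ : SL(2, ℤ)) (basePt Γ) = φ (Additive.ofMul γ) := by
  obtain ⟨γ', hγ', h⟩ := indc_apply_of_fixed φ (γ : SL(2, ℤ)) (basePt Γ)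
    (smul_basePt_of_mem Γ γ.2)
  rw [h]
  -- `γ' = s⁻¹ γ s` with `s ∈ Γ`
  have hs : (Quotient.out (basePt Γ) : SL(2, ℤ)) ∈ Γ := by
    have h1 := out_smul_basePt Γ (basePt Γ)
    rw [smul_basePt_eq, basePt, QuotientGroup.eq] at h1
    have h2 := inv_mem h1
    rw [mul_one, inv_inv] at h2
    exact h2
  set s : Γ := ⟨_, hs⟩ with hsdef
  have e : γ' = s⁻¹ * γ * s := Subtype.ext (by rw [hγ']; rfl)
  rw [e, ofMul_mul, ofMul_mul, map_add, map_add, ofMul_inv, map_neg]
  abel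

end Indc

/-! ## Finite order elements -/

section FinOrder

lemma isOfFinOrder_S_h460 : IsOfFinOrder (S : SL(2, ℤ)) :=
  isOfFinOrder_iff_pow_eq_one.mpr ⟨4, by norm_num, by decide⟩

lemma isOfFinOrder_ST_h460 : IsOfFinOrder (S * T : SL(2, ℤ)) :=
  isOfFinOrder_iff_pow_eq_one.mpr ⟨6, by norm_num, by decide⟩

variable {Γ : Subgroup SL(2, ℤ)} {A : Type*} [AddCommGroup A]

/-- A torsion-trivial `φ` has `indc φ (g ^ n) x = 0` at the fixed points of `g ^ n`, `g` of finite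
order. -/
lemma indc_zpow_eq_zero_of_fixed (φ : Additive Γ →+ A)
    (hφ : ∀ γ : Γ, IsOfFinOrder γ → φ (Additive.ofMul γ) = 0) (g : SL(2, ℤ))
    (hg : IsOfFinOrder g) (x : SL(2, ℤ) ⧸ Γ) (n : ℤ) (hfix : g ^ n • x = x) :
    indc Γ φ (g ^ n) x = 0 := by
  obtain ⟨γ, hγ, h⟩ := indc_apply_of_fixed φ (g ^ n) x hfix
  rw [h]
  apply hφ
  obtain ⟨k, hk, hgk⟩ := isOfFinOrder_iff_pow_eq_one.mp (hg.zpow (i := n))
  refine isOfFinOrder_iff_pow_eq_one.mpr ⟨k, hk, ?_⟩
  apply Subtype.ext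
  rw [Subgroup.coe_pow, hγ, Subgroup.coe_one]
  have e : (Quotient.out x : SL(2, ℤ))⁻¹ * g ^ n * Quotient.out x
      = (Quotient.out x : SL(2, ℤ))⁻¹ * g ^ n * ((Quotient.out x : SL(2, ℤ))⁻¹)⁻¹ := by
    rw [inv_inv]
  rw [e, conj_pow, hgk, mul_one, mul_inv_cancel]

end FinOrder

/-! ## The four statements -/

/-- **(D1)** every torsion-trivial class has a Manin representative. -/
theorem maninRepExists : ManinRepExistsStatement.{u} := by
  intro Γ _ hneg A _ φ hφ
  have hf₀ : IsCocycle (indc Γ φ) := isCocycle_indc φ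
  -- normalise at `S`
  obtain ⟨n₀, hn₀⟩ := exists_cobd_of_zpow_fixed hf₀ S
    (fun x n h => indc_zpow_eq_zero_of_fixed φ hφ S isOfFinOrder_S_h460 x n h)
  set f₁ : SL(2, ℤ) → SL(2, ℤ) ⧸ Γ → A := fun g x => indc Γ φ g x - (n₀ (g • x) - n₀ x)
    with hf₁def
  have hf₁ : IsCocycle f₁ := isCocycle_sub hf₀ (isCocycle_cobd n₀)
  have hf₁S : ∀ x, f₁ S x = 0 := by
    intro x
    show indc Γ φ S x - (n₀ (S • x) - n₀ x) = 0
    rw [hn₀ x, sub_self]
  -- normalise at `S * T`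
  obtain ⟨m, hm⟩ := exists_cobd_of_zpow_fixed hf₁ (S * T) (by
    intro x n h
    show indc Γ φ ((S * T) ^ n) x - (n₀ ((S * T) ^ n • x) - n₀ x) = 0
    rw [indc_zpow_eq_zero_of_fixed φ hφ (S * T) isOfFinOrder_ST_h460 x n h, h, sub_self,
      sub_zero])
  refine ⟨m, f₁, ⟨hf₁, hf₁S, hm⟩, fun γ => ?_⟩
  show φ (Additive.ofMul γ) = indc Γ φ (γ : SL(2, ℤ)) (basePt Γ)
    - (n₀ ((γ : SL(2, ℤ)) • basePt Γ) - n₀ (basePt Γ))
  rw [indc_basePt, smul_basePt_of_mem Γ γ.2, sub_self, sub_zero]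

/-- A cocycle whose homomorphism vanishes is the coboundary of `x ↦ f (out x) x₀`. -/
lemma eq_cobd_of_hom_eq_zero {Γ : Subgroup SL(2, ℤ)} {A : Type*} [AddCommGroup A]
    {f : SL(2, ℤ) → SL(2, ℤ) ⧸ Γ → A} (hf : IsCocycle f)
    (h0 : ∀ γ : Γ, f (γ : SL(2, ℤ)) (basePt Γ) = 0) (g : SL(2, ℤ)) (x : SL(2, ℤ) ⧸ Γ) :
    f g x = f (Quotient.out (g • x)) (basePt Γ) - f (Quotient.out x) (basePt Γ) := by
  have h1 := hf.eq_indc_add g x
  have h2 : homOfCocycle Γ f hf = 0 := by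
    ext γ
    exact h0 (Additive.toMul γ)
  rw [h2] at h1
  rw [h1]
  have h3 : indc Γ (0 : Additive Γ →+ A) g x = 0 := rfl
  rw [h3, zero_add]

/-- **(D2)** a Manin symbol representing `0` lies in `M^S + M^{ST}`. -/
theorem maninRepZero : ManinRepZeroStatement.{u} := by
  intro Γ _ _ A _ m hm
  obtain ⟨f, ⟨hf, hfS, hfU⟩, hφ⟩ := hm
  have h0 : ∀ γ : Γ, f (γ : SL(2, ℤ)) (basePt Γ) = 0 := fun γ => (hφ γ).symm
  set n : SL(2, ℤ) ⧸ Γ → A := fun x => f (Quotient.out x) (basePt Γ) with hn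
  have hcob : ∀ g x, f g x = n (g • x) - n x := fun g x => eq_cobd_of_hom_eq_zero hf h0 g x
  refine ⟨n, m - n, ?_, ?_, by abel⟩
  · intro x
    have := hcob S x
    rw [hfS] at this
    exact (sub_eq_zero.mp this.symm)
  · intro x
    have h1 := hcob (S * T) x
    rw [hfU] at h1
    show m ((S * T) • x) - n ((S * T) • x) = m x - n x
    rw [sub_eq_sub_iff_sub_eq_sub]
    exact h1

/-- A cocycle on `SL(2,ℤ)` is determined by its values at `S` and `S * T`. -/
theorem isCocycle_eq_of_S_ST {X : Type*} [MulAction SL(2, ℤ) X] {A : Type*} [AddCommGroup A]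
    {f f' : SL(2, ℤ) → X → A} (hf : IsCocycle f) (hf' : IsCocycle f')
    (hS : ∀ x, f S x = f' S x) (hU : ∀ x, f (S * T) x = f' (S * T) x) (g : SL(2, ℤ)) (x : X) :
    f g x = f' g x := by
  -- the subgroup where `f` and `f'` agree
  let H : Subgroup SL(2, ℤ) :=
    { carrier := {g | ∀ x, f g x = f' g x}
      one_mem' := fun x => by rw [hf.map_one, hf'.map_one]
      mul_mem' := fun {a b} ha hb x => by
        show f (a * b) x = f' (a * b) x
        rw [hf, hf', ha, hb]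
      inv_mem' := fun {a} ha x => by
        show f a⁻¹ x = f' a⁻¹ x
        rw [hf.map_inv', hf'.map_inv', ha] }
  have hSH : S ∈ H := hS
  have hUH : S * T ∈ H := hU
  have hTH : T ∈ H := by
    have := H.mul_mem (H.inv_mem hSH) hUH
    rwa [inv_mul_cancel_left] at this
  have htop : (⊤ : Subgroup SL(2, ℤ)) ≤ H := by
    rw [← _root_.SpecialLinearGroup.SL2Z_generators, Subgroup.closure_le]
    rintro y (rfl | rfl)
    · exact hSH
    · exact hTH
  exact htop (Subgroup.mem_top g) x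

/-- **(D2')** a Manin symbol in `M^S + M^{ST}` represents only `0`. -/
theorem maninRepInvariant : ManinRepInvariantStatement.{u} := by
  intro Γ _ _ A _ φ m hm hinv
  obtain ⟨f, ⟨hf, hfS, hfU⟩, hφ⟩ := hm
  obtain ⟨n₁, n₂, hn₁, hn₂, rfl⟩ := hinv
  have hcob : IsCocycle (fun (g : SL(2, ℤ)) (x : SL(2, ℤ) ⧸ Γ) => n₁ (g • x) - n₁ x) :=
    isCocycle_cobd n₁
  have key := isCocycle_eq_of_S_ST hf hcob
    (fun x => by
      show f S x = n₁ (S • x) - n₁ x
      rw [hfS, hn₁, sub_self])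
    (fun x => by
      show f (S * T) x = n₁ ((S * T) • x) - n₁ x
      rw [hfU, Pi.add_apply, Pi.add_apply, hn₂]
      abel)
  ext γ
  have h1 := hφ (Additive.toMul γ)
  have h2 := key ((Additive.toMul γ : Γ) : SL(2, ℤ)) (basePt Γ)
  have h3 : ((Additive.toMul γ : Γ) : SL(2, ℤ)) • basePt Γ = basePt Γ :=
    smul_basePt_of_mem Γ (Additive.toMul γ).2
  simp only [h3, sub_self] at h2
  show φ γ = 0
  exact h1.trans h2

/-- **(D2'')** linearity and naturality of `IsManinRep`. -/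
theorem maninRepLinear : ManinRepLinearStatement.{u} := by
  intro Γ A B _ _ π φ φ' m m' hm hm'
  obtain ⟨f, ⟨hf, hfS, hfU⟩, hφ⟩ := hm
  obtain ⟨f', ⟨hf', hfS', hfU'⟩, hφ'⟩ := hm'
  refine ⟨⟨fun g x => f g x + f' g x, ⟨isCocycle_add hf hf', fun x => ?_, fun x => ?_⟩, fun γ => ?_⟩,
    ⟨fun g x => f g x - f' g x, ⟨isCocycle_sub hf hf', fun x => ?_, fun x => ?_⟩, fun γ => ?_⟩,
    ⟨fun g x => π (f g x), ⟨isCocycle_map π hf, fun x => ?_, fun x => ?_⟩, fun γ => ?_⟩⟩
  · show f S x + f' S x = 0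
    rw [hfS, hfS', add_zero]
  · show f (S * T) x + f' (S * T) x = (m + m') ((S * T) • x) - (m + m') x
    rw [hfU, hfU', Pi.add_apply, Pi.add_apply]
    abel
  · show (φ + φ') (Additive.ofMul γ) = f _ _ + f' _ _
    rw [AddMonoidHom.add_apply, hφ, hφ']
  · show f S x - f' S x = 0
    rw [hfS, hfS', sub_zero]
  · show f (S * T) x - f' (S * T) x = (m - m') ((S * T) • x) - (m - m') x
    rw [hfU, hfU', Pi.sub_apply, Pi.sub_apply]
    abel
  · show (φ - φ') (Additive.ofMul γ) = f _ _ - f' _ _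
    rw [AddMonoidHom.sub_apply, hφ, hφ']
  · show π (f S x) = 0
    rw [hfS, map_zero]
  · show π (f (S * T) x) = π (m ((S * T) • x)) - π (m x)
    rw [hfU, map_sub]
  · show (π.comp φ) (Additive.ofMul γ) = π (f _ _)
    rw [AddMonoidHom.comp_apply, hφ]

end Fermat.Agent.S41.H460
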